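import Mathlib

/-!
# Nested ellipses and Poncelet polygons

An ellipse is the image of the unit circle under an affine bijection of the plane. A chord is
tangent to an ellipse when its line meets it in exactly one point.
-/

set_option autoImplicit false

noncomputable section

namespace FA.Poncelet

/-- The plane. -/
abbrev Plane : Type := ℝ × ℝ

/-- The unit circle. -/
def unitCircle : Set Plane := {p | p.1 ^ 2 + p.2 ^ 2 = 1}

/-- The open unit disc. -/
def unitDisc : Set Plane := {p | p.1 ^ 2 + p.2 ^ 2 < 1}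

/-- The line through `P` and `Q` meets the ellipse `B` in exactly one point. -/
def IsTangent (B : Plane ≃ᵃ[ℝ] Plane) (P Q : Plane) : Prop :=
  ∃! t : ℝ, AffineMap.lineMap P Q t ∈ B '' unitCircle

/-- A Poncelet polygon: vertices on the outer ellipse `A`, sides on tangents of the inner ellipse
`B`, two different tangents at each vertex. -/
structure IsPolygon (A B : Plane ≃ᵃ[ℝ] Plane) (P : ℕ → Plane) : Prop where
  on_outer : ∀ i, P i ∈ A '' unitCircle
  ne_next : ∀ i, P (i + 1) ≠ P i
  ne_prev : ∀ i, P (i + 2) ≠ P i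
  tangent : ∀ i, IsTangent B (P i) (P (i + 1))

theorem IsPolygon.shift {A B : Plane ≃ᵃ[ℝ] Plane} {P : ℕ → Plane} (h : IsPolygon A B P) (k : ℕ) :
    IsPolygon A B fun i => P (i + k) where
  on_outer i := h.on_outer _
  ne_next i := by rw [show i + 1 + k = i + k + 1 by ring]; exact h.ne_next _
  ne_prev i := by rw [show i + 2 + k = i + k + 2 by ring]; exact h.ne_prev _
  tangent i := by rw [show i + 1 + k = i + k + 1 by ring]; exact h.tangent _

theorem image_map_trans (A B : Plane ≃ᵃ[ℝ] Plane) (x : Plane) :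
    A.symm x ∈ (B.trans A.symm) '' unitCircle ↔ x ∈ B '' unitCircle := by
  simp only [Set.mem_image, AffineEquiv.trans_apply, EmbeddingLike.apply_eq_iff_eq]

/-- **Affine invariance.** -/
theorem IsPolygon.normalise {A B : Plane ≃ᵃ[ℝ] Plane} {P : ℕ → Plane} (h : IsPolygon A B P) :
    IsPolygon (AffineEquiv.refl ℝ Plane) (B.trans A.symm) fun i => A.symm (P i) where
  on_outer i := by
    obtain ⟨z, hz, he⟩ := h.on_outer i
    exact ⟨z, hz, by simp [← he]⟩
  ne_next i e := h.ne_next i (A.symm.injective e)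
  ne_prev i e := h.ne_prev i (A.symm.injective e)
  tangent i := by
    have ht := h.tangent i
    unfold IsTangent at ht ⊢
    refine (existsUnique_congr fun t => ?_).1 ht
    rw [show AffineMap.lineMap (A.symm (P i)) (A.symm (P (i + 1))) t =
      A.symm (AffineMap.lineMap (P i) (P (i + 1)) t) from
        (A.symm.toAffineMap.apply_lineMap _ _ t).symm]
    exact (image_map_trans A B _).symm

theorem IsPolygon.denormalise {A B : Plane ≃ᵃ[ℝ] Plane} {P : ℕ → Plane}
    (h : IsPolygon (AffineEquiv.refl ℝ Plane) (B.trans A.symm) P) :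
    IsPolygon A B fun i => A (P i) where
  on_outer i := by
    obtain ⟨z, hz, he⟩ := h.on_outer i
    exact ⟨z, hz, by rw [← he]; rfl⟩
  ne_next i e := h.ne_next i (A.injective e)
  ne_prev i e := h.ne_prev i (A.injective e)
  tangent i := by
    have ht := h.tangent i
    unfold IsTangent at ht ⊢
    refine (existsUnique_congr fun t => ?_).1 ht
    rw [← image_map_trans A B (AffineMap.lineMap (A (P i)) (A (P (i + 1))) t),
      show AffineMap.lineMap (A (P i)) (A (P (i + 1))) t =
        A (AffineMap.lineMap (P i) (P (i + 1)) t) from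
          (A.toAffineMap.apply_lineMap _ _ t).symm, AffineEquiv.symm_apply_apply]

/-- A line meets the unit circle once exactly when it is at distance one from the origin. -/
theorem existsUnique_lineMap_iff {z w : Plane} (h : z ≠ w) :
    (∃! t : ℝ, AffineMap.lineMap z w t ∈ unitCircle) ↔
      (z.1 * (w.2 - z.2) - z.2 * (w.1 - z.1)) ^ 2 = (w.1 - z.1) ^ 2 + (w.2 - z.2) ^ 2 := by
  set a := (w.1 - z.1) ^ 2 + (w.2 - z.2) ^ 2 with ha
  set b := z.1 * (w.1 - z.1) + z.2 * (w.2 - z.2) with hb
  set x := z.1 * (w.2 - z.2) - z.2 * (w.1 - z.1) with hx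
  have ha0 : 0 < a := by
    by_contra hle
    have h1 : w.1 - z.1 = 0 := by nlinarith [sq_nonneg (w.1 - z.1), sq_nonneg (w.2 - z.2)]
    have h2 : w.2 - z.2 = 0 := by nlinarith [sq_nonneg (w.1 - z.1), sq_nonneg (w.2 - z.2)]
    exact h (Prod.ext (by linarith) (by linarith))
  have key : ∀ t : ℝ, AffineMap.lineMap z w t ∈ unitCircle ↔ (a * t + b) ^ 2 = a - x ^ 2 := by
    intro t
    have e : a * ((AffineMap.lineMap z w t).1 ^ 2 + (AffineMap.lineMap z w t).2 ^ 2) =
        (a * t + b) ^ 2 + x ^ 2 := by
      simp only [AffineMap.lineMap_apply_module, Prod.fst_add, Prod.snd_add, Prod.smul_fst,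
        Prod.smul_snd, smul_eq_mul, ha, hb, hx]
      ring
    show (AffineMap.lineMap z w t).1 ^ 2 + (AffineMap.lineMap z w t).2 ^ 2 = 1 ↔ _
    constructor
    · intro h1; rw [h1] at e; linarith
    · intro h1; exact mul_left_cancel₀ ha0.ne' (by linarith)
  simp only [key]
  constructor
  · rintro ⟨t, ht, hu⟩
    have h1 := hu (-t - 2 * b / a) (by
      show (a * (-t - 2 * b / a) + b) ^ 2 = a - x ^ 2
      rw [← ht]; field_simp; ring)
    have : a * t + b = 0 := by
      have e : a * (2 * b / a) = 2 * b := mul_div_cancel₀ _ ha0.ne'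
      nlinarith [congrArg (a * ·) h1]
    rw [this] at ht
    linarith [show (0 : ℝ) ^ 2 = a - x ^ 2 from ht]
  · intro hxa
    refine ⟨-b / a, ?_, fun t ht => ?_⟩
    · show (a * (-b / a) + b) ^ 2 = a - x ^ 2
      rw [hxa, mul_div_cancel₀ _ ha0.ne']; ring
    · have h1 : a * t + b = 0 := pow_eq_zero_iff two_ne_zero |>.1 (by rw [ht, hxa, sub_self])
      field_simp
      linarith

end FA.Poncelet

end
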