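import Fermat.Agent.Poncelet.Main

/-!
# Two circles: triangles and concentric polygons

If the centres of two circles are at squared distance `R² - 2 R r`, one symmetrical triangle closes,
so by Poncelet's porism a triangle starts at every point of the outer circle.
-/

set_option autoImplicit false

noncomputable section

open Real

namespace FA.Poncelet

/-- The affine bijection carrying the unit circle to a circle. -/
def circleEquiv (c : Plane) (r : ℝ) (hr : r ≠ 0) : Plane ≃ᵃ[ℝ] Plane :=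
  (LinearEquiv.smulOfNeZero ℝ Plane r hr).toAffineEquiv.trans (AffineEquiv.constVAdd ℝ Plane c)

theorem circleEquiv_apply (c : Plane) (r : ℝ) (hr : r ≠ 0) (z : Plane) :
    circleEquiv c r hr z = (c.1 + r * z.1, c.2 + r * z.2) := by
  simp [circleEquiv]
  rfl

/-- The circle with a given centre and radius. -/
def circleSet (c : Plane) (r : ℝ) : Set Plane := {p | (p.1 - c.1) ^ 2 + (p.2 - c.2) ^ 2 = r ^ 2}

theorem circleEquiv_image (c : Plane) (r : ℝ) (hr : r ≠ 0) :
    circleEquiv c r hr '' unitCircle = circleSet c r := by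
  ext p
  constructor
  · rintro ⟨z, hz, rfl⟩
    have hz' : z.1 ^ 2 + z.2 ^ 2 = 1 := hz
    rw [circleEquiv_apply]
    show (c.1 + r * z.1 - c.1) ^ 2 + (c.2 + r * z.2 - c.2) ^ 2 = r ^ 2
    linear_combination r ^ 2 * hz'
  · intro hp
    refine ⟨((p.1 - c.1) / r, (p.2 - c.2) / r), ?_, ?_⟩
    · show ((p.1 - c.1) / r) ^ 2 + ((p.2 - c.2) / r) ^ 2 = 1
      rw [div_pow, div_pow, ← add_div, show (p.1 - c.1) ^ 2 + (p.2 - c.2) ^ 2 = r ^ 2 from hp]
      exact div_self (pow_ne_zero 2 hr)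
    · rw [circleEquiv_apply, mul_div_cancel₀ _ hr, mul_div_cancel₀ _ hr]
      simp

/-- Every plane vector has a polar form. -/
theorem exists_polar (e : Plane) :
    ∃ φ : ℝ, e.1 = √(e.1 ^ 2 + e.2 ^ 2) * cos φ ∧ e.2 = √(e.1 ^ 2 + e.2 ^ 2) * sin φ := by
  set d := √(e.1 ^ 2 + e.2 ^ 2)
  have hd : d ^ 2 = e.1 ^ 2 + e.2 ^ 2 := sq_sqrt (by positivity)
  rcases eq_or_ne d 0 with h | h
  · exact ⟨0, by simp [h]; nlinarith, by simp [h]; nlinarith⟩
  · obtain ⟨φ, hφ⟩ := exists_ept (z := (e.1 / d, e.2 / d)) (by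
      show (e.1 / d) ^ 2 + (e.2 / d) ^ 2 = 1
      rw [div_pow, div_pow, ← add_div, ← hd, div_self (pow_ne_zero 2 h)])
    obtain ⟨h1, h2⟩ := Prod.ext_iff.1 hφ
    exact ⟨φ, by rw [← (show e.1 / d = cos φ from h1), mul_div_cancel₀ _ h],
      by rw [← (show e.2 / d = sin φ from h2), mul_div_cancel₀ _ h]⟩

/-- The support of an inner circle. -/
theorem support_circle (E : Inside) {d ρ φ : ℝ} (hρ : 0 ≤ ρ) (hu : E.u = d * cos φ)
    (hv : E.v = d * sin φ) (ha : E.a = ρ) (hb : E.b = 0) (ha' : E.a' = 0) (hb' : E.b' = ρ)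
    (m : ℝ) : E.support m = d * cos (m - φ) + ρ := by
  have hn : E.normSq m = ρ ^ 2 := by
    rw [Inside.normSq, ha, hb, ha', hb']
    linear_combination ρ ^ 2 * sin_sq_add_cos_sq m
  rw [Inside.support, hn, sqrt_sq hρ, Inside.centre, hu, hv, cos_sub]
  ring

/-- **Chapple's triangle closes.** -/
theorem three_shift (E : Inside) {d ρ φ : ℝ} (hd : 0 ≤ d) (hd1 : d < 1) (hρ : 2 * ρ = 1 - d ^ 2)
    (hu : E.u = d * cos φ) (hv : E.v = d * sin φ) (ha : E.a = ρ) (hb : E.b = 0) (ha' : E.a' = 0)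
    (hb' : E.b' = ρ) : 3 * E.shiftLen = E.period := by
  have hρ0 : 0 ≤ ρ := by nlinarith
  have hS := support_circle E hρ0 hu hv ha hb ha' hb'
  set A := arccos (ρ - d)
  have hA : cos A = ρ - d := cos_arccos (by nlinarith) (by nlinarith)
  have hA0 : 0 ≤ A := arccos_nonneg _
  have hAπ : A ≤ π := arccos_le_pi _
  have hs : sin (A / 2) = (1 + d) / 2 := by
    have h1 : 0 ≤ sin (A / 2) := sin_nonneg_of_nonneg_of_le_pi (by linarith) (by linarith)
    have h2 : cos A = 1 - 2 * sin (A / 2) ^ 2 := by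
      rw [show A = 2 * (A / 2) by ring, cos_two_mul, cos_sq', show 2 * (A / 2) / 2 = A / 2 by ring]
      ring
    exact (pow_left_inj₀ h1 (by linarith) two_ne_zero).1 (by nlinarith)
  have hB : arccos ((1 + d) / 2) = (π - A) / 2 := by
    rw [← hs, ← cos_pi_div_two_sub, arccos_cos (by linarith) (by linarith)]; ring
  have s1 : E.support (φ + (π - A) / 2) = (1 + d) / 2 := by
    rw [hS, show φ + (π - A) / 2 - φ = π / 2 - A / 2 by ring, cos_pi_div_two_sub, hs]
    linarith
  have s2 : E.support (φ + π) = ρ - d := by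
    rw [hS, add_sub_cancel_left, cos_pi]; ring
  have s3 : E.support (φ + π + (π + A) / 2) = (1 + d) / 2 := by
    rw [hS, show φ + π + (π + A) / 2 - φ = (π / 2 - -(A / 2)) + π by ring, cos_add_pi,
      cos_pi_div_two_sub, sin_neg, hs]
    linarith
  have c1 := E.coord_head (φ + (π - A) / 2)
  have c2 := E.coord_head (φ + π)
  have c3 := E.coord_head (φ + π + (π + A) / 2)
  simp only [Inside.head, Inside.tail, s1, s2, s3, hB] at c1 c2 c3
  rw [show φ + (π - A) / 2 + (π - A) / 2 = φ + π - A by ring,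
    show φ + (π - A) / 2 - (π - A) / 2 = φ by ring] at c1
  rw [show φ + π + (π + A) / 2 + (π - A) / 2 = φ + 2 * π by ring,
    show φ + π + (π + A) / 2 - (π - A) / 2 = φ + π + A by ring, E.coord_add_two_pi] at c3
  linarith

theorem dist_lt {R r : ℝ} (hR : 0 < R) (hr : 0 < r) {O I : Plane}
    (h : (I.1 - O.1) ^ 2 + (I.2 - O.2) ^ 2 = R ^ 2 - 2 * R * r) :
    circleEquiv I r hr.ne' '' unitCircle ⊆ circleEquiv O R hR.ne' '' unitDisc := by
  rintro _ ⟨z, hz, rfl⟩
  have hz' : z.1 ^ 2 + z.2 ^ 2 = 1 := hz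
  set w := circleEquiv I r hr.ne' z
  refine ⟨((w.1 - O.1) / R, (w.2 - O.2) / R), ?_, ?_⟩
  · show ((w.1 - O.1) / R) ^ 2 + ((w.2 - O.2) / R) ^ 2 < 1
    rw [div_pow, div_pow, ← add_div, div_lt_one (pow_pos hR 2)]
    simp only [w, circleEquiv_apply]
    set x := I.1 - O.1
    set y := I.2 - O.2
    set T := x * z.1 + y * z.2
    have e : (I.1 + r * z.1 - O.1) ^ 2 + (I.2 + r * z.2 - O.2) ^ 2 =
        R ^ 2 - 2 * R * r + 2 * r * T + r ^ 2 := by
      simp only [x, y, T] at *
      linear_combination h + r ^ 2 * hz'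
    have hT : T ^ 2 ≤ R ^ 2 - 2 * R * r := by
      nlinarith [sq_nonneg (x * z.2 - y * z.1)]
    rw [e]
    have hR2 : 2 * r ≤ R := by nlinarith [sq_nonneg T]
    have : 2 * T + r < 2 * R := by
      by_contra hge
      have : R - r / 2 ≤ T := by linarith
      nlinarith [pow_le_pow_left₀ (by linarith : 0 ≤ R - r / 2) this 2]
    nlinarith
  · rw [circleEquiv_apply, mul_div_cancel₀ _ hR.ne', mul_div_cancel₀ _ hR.ne']
    simp

/-- **Chapple–Euler: every polygon is a triangle.** -/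
theorem chapple_porism {R r : ℝ} (hR : 0 < R) (hr : 0 < r) {O I : Plane}
    (h : (I.1 - O.1) ^ 2 + (I.2 - O.2) ^ 2 = R ^ 2 - 2 * R * r) {P : ℕ → Plane}
    (hP : IsPolygon (circleEquiv O R hR.ne') (circleEquiv I r hr.ne') P) :
    P 3 = P 0 := by
  set C := (circleEquiv I r hr.ne').trans (circleEquiv O R hR.ne').symm with hC
  have hsub := subset_disc (dist_lt hR hr h)
  have hap : ∀ z : Plane, C z =
      ((I.1 - O.1) / R + r / R * z.1, (I.2 - O.2) / R + r / R * z.2) := fun z => by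
    apply (circleEquiv O R hR.ne').injective
    rw [hC, AffineEquiv.trans_apply, AffineEquiv.apply_symm_apply, circleEquiv_apply,
      circleEquiv_apply]
    ext <;> field_simp <;> ring
  have hl : ∀ z : Plane, C.linear z = C z - C 0 := fun z => by
    have : C z = C.linear z + C 0 := by simpa using C.map_vadd 0 z
    rw [this, add_sub_cancel_right]
  set E := insideOf C hsub with hE
  obtain ⟨φ, h1, h2⟩ := exists_polar (C 0)
  set d := √((C 0).1 ^ 2 + (C 0).2 ^ 2)
  have hd2 : d ^ 2 = 1 - 2 * (r / R) := by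
    rw [sq_sqrt (by positivity), hap]
    simp only [Prod.fst_zero, Prod.snd_zero]
    field_simp
    linarith
  have h3 : 3 * E.shiftLen = E.period := by
    refine three_shift E (d := d) (ρ := r / R) (φ := φ) (sqrt_nonneg _) ?_ (by linarith) h1 h2
      ?_ ?_ ?_ ?_
    · nlinarith [div_pos hr hR, sqrt_nonneg ((C 0).1 ^ 2 + (C 0).2 ^ 2)]
    all_goals
      show _ = _
      simp [E, insideOf, coeffsOf, hl, hap]
  refine (circleEquiv O R hR.ne').symm.injective.eq_iff.1 ?_
  exact (closes_iff hsub hP.normalise 3).2 ⟨1, by push_cast; linarith⟩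

/-- **A triangle from every point of the outer circle.** -/
theorem chapple_triangle {R r : ℝ} (hR : 0 < R) (hr : 0 < r) {O I : Plane}
    (h : (I.1 - O.1) ^ 2 + (I.2 - O.2) ^ 2 = R ^ 2 - 2 * R * r) {x : Plane}
    (hx : x ∈ circleSet O R) :
    ∃ y ∈ circleSet O R, ∃ z ∈ circleSet O R, x ≠ y ∧ y ≠ z ∧ z ≠ x ∧
      (∃! t : ℝ, AffineMap.lineMap x y t ∈ circleSet I r) ∧
      (∃! t : ℝ, AffineMap.lineMap y z t ∈ circleSet I r) ∧
      ∃! t : ℝ, AffineMap.lineMap z x t ∈ circleSet I r := by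
  rw [← circleEquiv_image O R hR.ne'] at hx
  obtain ⟨P, hP, rfl⟩ := exists_polygon_from (dist_lt hR hr h) hx
  have h3 := chapple_porism hR hr h hP
  have t2 := hP.tangent 2
  have n2 := hP.ne_next 2
  rw [show 2 + 1 = 3 from rfl, h3] at t2 n2
  have t0 := hP.tangent 0
  have t1 := hP.tangent 1
  simp only [IsTangent, circleEquiv_image] at t0 t1 t2
  exact ⟨P 1, circleEquiv_image O R hR.ne' ▸ hP.on_outer 1,
    P 2, circleEquiv_image O R hR.ne' ▸ hP.on_outer 2,
    (hP.ne_next 0).symm, (hP.ne_next 1).symm, n2.symm, t0, t1, t2⟩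

/-- The inner radius of a regular star polygon gives a closed polygon. -/
theorem concentric_closes {n k : ℕ} (hk : 1 ≤ k) (hkn : 2 * k < n) (hr : cos (k * π / n) ≠ 0)
    {P : ℕ → Plane}
    (hP : IsPolygon (AffineEquiv.refl ℝ Plane) (circleEquiv 0 (cos (k * π / n)) hr) P) :
    P n = P 0 := by
  set A := (k : ℝ) * π / n with hA
  have hn : (0 : ℝ) < n := by exact_mod_cast (by omega : 0 < n)
  have hA0 : 0 < A := by
    have : (0 : ℝ) < k := by exact_mod_cast hk
    positivity
  have hA2 : A < π / 2 := by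
    have : 2 * (k : ℝ) < n := by exact_mod_cast hkn
    rw [hA, div_lt_iff₀ hn]; nlinarith [pi_pos]
  have hc : 0 < cos A := cos_pos_of_mem_Ioo ⟨by linarith, hA2⟩
  have hc1 : cos A < 1 := by
    simpa using cos_lt_cos_of_nonneg_of_le_pi le_rfl (by linarith [pi_pos]) hA0
  have hsub : circleEquiv 0 (cos A) hr '' unitCircle ⊆ unitDisc := by
    rintro _ ⟨z, hz, rfl⟩
    have hz' : z.1 ^ 2 + z.2 ^ 2 = 1 := hz
    rw [circleEquiv_apply]
    show ((0 : Plane).1 + cos A * z.1) ^ 2 + ((0 : Plane).2 + cos A * z.2) ^ 2 < 1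
    simp only [Prod.fst_zero, Prod.snd_zero, zero_add]
    rw [mul_pow, mul_pow, ← mul_add, hz', mul_one]
    nlinarith
  set C := circleEquiv 0 (cos A) hr
  set E := insideOf C hsub with hE
  have hl : ∀ z : Plane, C.linear z = C z := fun z => by
    have : C z = C.linear z + C 0 := by simpa using C.map_vadd 0 z
    rw [this]; simp [C, circleEquiv_apply]
  have hS : ∀ m, E.support m = cos A := fun m => by
    rw [support_circle E (d := 0) (ρ := cos A) (φ := 0) hc.le] <;>
      simp [E, insideOf, coeffsOf, hl, C, circleEquiv_apply]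
  have hi : ∀ i : ℕ, E.coord ((2 * i : ℝ) * A) = E.coord 0 + i * E.shiftLen := by
    intro i
    induction i with
    | zero => simp
    | succ i ih =>
      have h := E.coord_head ((2 * i + 1 : ℝ) * A)
      simp only [Inside.head, Inside.tail, hS, arccos_cos hA0.le (by linarith [pi_pos])] at h
      rw [show (2 * (i : ℝ) + 1) * A - A = 2 * i * A by ring, ih,
        show (2 * (i : ℝ) + 1) * A + A = 2 * ((i + 1 : ℕ) : ℝ) * A by push_cast; ring] at h
      rw [h]; push_cast; ring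
  have h := hi n
  rw [show (2 * (n : ℝ)) * A = 0 + ((k : ℤ) : ℝ) * (2 * π) by
    rw [hA]; field_simp; push_cast; ring, E.coord_add_int] at h
  exact (closes_iff hsub hP n).2 ⟨k, by push_cast at h ⊢; linarith⟩

end FA.Poncelet

end
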