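import Fermat.Agent.Poncelet.Basic

/-!
# The tangent map of the unit circle and its invariant differential

For an ellipse inside the unit circle the tangent lines are `x cos m + y sin m = h(m)`; they cut
the circle at the angles `m ± arccos (h m)`, both increasing in `m`, and `dθ / √Q`, `Q` the
quadratic form of the ellipse minus one, takes the same value at the two ends.
-/

set_option autoImplicit false

noncomputable section

open Real

namespace FA.Poncelet

/-- The coefficients of an affine bijection. -/
structure Coeffs where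
  u : ℝ
  v : ℝ
  a : ℝ
  b : ℝ
  a' : ℝ
  b' : ℝ
  det_ne : a * b' - b * a' ≠ 0

/-- An ellipse strictly inside the unit circle. -/
structure Inside extends Coeffs where
  inside : ∀ x y : ℝ, x ^ 2 + y ^ 2 = 1 →
    (u + a * x + b * y) ^ 2 + (v + a' * x + b' * y) ^ 2 < 1

/-- The point of the unit circle at an angle. -/
def ept (θ : ℝ) : Plane := (cos θ, sin θ)

namespace Inside

variable (E : Inside)

/-- `|Mᵀ n|²` for the normal `n` of angle `m`. -/
def normSq (m : ℝ) : ℝ := (E.a * cos m + E.a' * sin m) ^ 2 + (E.b * cos m + E.b' * sin m) ^ 2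

/-- The centre along the normal. -/
def centre (m : ℝ) : ℝ := E.u * cos m + E.v * sin m

/-- The support function. -/
def support (m : ℝ) : ℝ := E.centre m + √(E.normSq m)

/-- Its derivative. -/
def supportD (m : ℝ) : ℝ :=
  (-E.u * sin m + E.v * cos m) +
    ((E.a * cos m + E.a' * sin m) * (-E.a * sin m + E.a' * cos m) +
      (E.b * cos m + E.b' * sin m) * (-E.b * sin m + E.b' * cos m)) / √(E.normSq m)

/-- The first end of the tangent chord. -/
def tail (m : ℝ) : ℝ := m - arccos (E.support m)

/-- The second end. -/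
def head (m : ℝ) : ℝ := m + arccos (E.support m)

/-- The quadratic form of the ellipse minus one. -/
def quad (p : Plane) : ℝ :=
  ((E.b' * (p.1 - E.u) - E.b * (p.2 - E.v)) ^ 2 + (-E.a' * (p.1 - E.u) + E.a * (p.2 - E.v)) ^ 2) /
    (E.a * E.b' - E.b * E.a') ^ 2 - 1

theorem normSq_pos (m : ℝ) : 0 < E.normSq m := by
  by_contra h
  have h0 : (E.a * cos m + E.a' * sin m) ^ 2 + (E.b * cos m + E.b' * sin m) ^ 2 ≤ 0 := not_lt.1 h
  have h1 : E.a * cos m + E.a' * sin m = 0 := by
    nlinarith [sq_nonneg (E.a * cos m + E.a' * sin m), sq_nonneg (E.b * cos m + E.b' * sin m)]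
  have h2 : E.b * cos m + E.b' * sin m = 0 := by
    nlinarith [sq_nonneg (E.a * cos m + E.a' * sin m), sq_nonneg (E.b * cos m + E.b' * sin m)]
  have hc : (E.a * E.b' - E.b * E.a') * cos m = 0 := by linear_combination E.b' * h1 - E.a' * h2
  have hs : (E.a * E.b' - E.b * E.a') * sin m = 0 := by linear_combination E.a * h2 - E.b * h1
  have := sin_sq_add_cos_sq m
  rw [(mul_eq_zero.1 hc).resolve_left E.det_ne, (mul_eq_zero.1 hs).resolve_left E.det_ne] at this
  norm_num at this

theorem normSq_add_pi (m : ℝ) : E.normSq (m + π) = E.normSq m := by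
  simp [normSq, cos_add_pi, sin_add_pi]; ring

theorem centre_add_pi (m : ℝ) : E.centre (m + π) = -E.centre m := by
  simp [centre, cos_add_pi, sin_add_pi]; ring

/-- The tangency point lies in the disc. -/
theorem support_sq_add_lt (m : ℝ) : E.support m ^ 2 + E.supportD m ^ 2 < 1 := by
  set r := √(E.normSq m) with hr
  have hr0 : 0 < r := sqrt_pos.2 (E.normSq_pos m)
  have hr2 : r ^ 2 = E.normSq m := sq_sqrt (E.normSq_pos m).le
  set x := (E.a * cos m + E.a' * sin m) / r
  set y := (E.b * cos m + E.b' * sin m) / r
  have hxy : x ^ 2 + y ^ 2 = 1 := by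
    simp only [x, y]; field_simp
    rw [hr2, normSq]; ring
  have h := E.inside x y hxy
  have e1 : E.support m = cos m * (E.u + E.a * x + E.b * y) +
      sin m * (E.v + E.a' * x + E.b' * y) := by
    simp only [support, centre, x, y, ← hr]
    field_simp
    simp only [normSq] at hr2
    linear_combination hr2
  have e2 : E.supportD m = -sin m * (E.u + E.a * x + E.b * y) +
      cos m * (E.v + E.a' * x + E.b' * y) := by
    simp only [supportD, x, y, ← hr]
    field_simp
    ring
  have key : ∀ X Y : ℝ, (cos m * X + sin m * Y) ^ 2 + (-sin m * X + cos m * Y) ^ 2 =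
      X ^ 2 + Y ^ 2 := fun X Y => by
    linear_combination (X ^ 2 + Y ^ 2) * sin_sq_add_cos_sq m
  rw [e1, e2, key]
  exact h

theorem support_mem (m : ℝ) : E.support m ∈ Set.Ioo (-1 : ℝ) 1 := by
  have h := E.support_sq_add_lt m
  constructor <;> nlinarith [sq_nonneg (E.supportD m)]

theorem sin_arccos_support (m : ℝ) :
    0 < sin (arccos (E.support m)) ∧ |E.supportD m| < sin (arccos (E.support m)) := by
  have h := E.support_sq_add_lt m
  rw [sin_arccos]
  have hlt : |E.supportD m| < √(1 - E.support m ^ 2) := by
    rw [← sqrt_sq_eq_abs]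
    exact sqrt_lt_sqrt (sq_nonneg _) (by linarith)
  exact ⟨lt_of_le_of_lt (abs_nonneg _) hlt, hlt⟩

theorem hasDerivAt_support (m : ℝ) : HasDerivAt E.support (E.supportD m) m := by
  have hc := hasDerivAt_cos m
  have hs := hasDerivAt_sin m
  have hn : HasDerivAt E.normSq _ m :=
    (((hc.const_mul E.a).add (hs.const_mul E.a')).pow 2).add
      (((hc.const_mul E.b).add (hs.const_mul E.b')).pow 2)
  have h := ((hc.const_mul E.u).add (hs.const_mul E.v)).add (hn.sqrt (E.normSq_pos m).ne')
  refine HasDerivAt.congr_deriv h ?_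
  have : (0 : ℝ) < √(E.normSq m) := sqrt_pos.2 (E.normSq_pos m)
  simp only [supportD, Pi.add_apply]
  field_simp
  ring

theorem hasDerivAt_arccos_support (m : ℝ) :
    HasDerivAt (fun m => arccos (E.support m))
      (-(E.supportD m / sin (arccos (E.support m)))) m := by
  obtain ⟨h1, h2⟩ := E.support_mem m
  refine ((hasDerivAt_arccos h1.ne' h2.ne).comp m (E.hasDerivAt_support m)).congr_deriv ?_
  rw [sin_arccos]
  ring

theorem hasDerivAt_tail (m : ℝ) :
    HasDerivAt E.tail (1 + E.supportD m / sin (arccos (E.support m))) m := by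
  refine ((hasDerivAt_id m).sub (E.hasDerivAt_arccos_support m)).congr_deriv ?_
  ring

theorem hasDerivAt_head (m : ℝ) :
    HasDerivAt E.head (1 - E.supportD m / sin (arccos (E.support m))) m := by
  refine ((hasDerivAt_id m).add (E.hasDerivAt_arccos_support m)).congr_deriv ?_
  ring

theorem deriv_bounds (m : ℝ) : |E.supportD m / sin (arccos (E.support m))| < 1 := by
  obtain ⟨h0, hlt⟩ := E.sin_arccos_support m
  rw [abs_div, abs_of_pos h0, div_lt_one h0]
  exact hlt

theorem strictMono_tail : StrictMono E.tail := strictMono_of_hasDerivAt_pos E.hasDerivAt_tail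
  fun m => by linarith [(abs_lt.1 (E.deriv_bounds m)).1]

theorem strictMono_head : StrictMono E.head := strictMono_of_hasDerivAt_pos E.hasDerivAt_head
  fun m => by linarith [(abs_lt.1 (E.deriv_bounds m)).2]

theorem support_periodic (m : ℝ) (j : ℤ) : E.support (m + j * (2 * π)) = E.support m := by
  simp [support, centre, normSq, cos_add_int_mul_two_pi, sin_add_int_mul_two_pi]

theorem tail_periodic (m : ℝ) (j : ℤ) : E.tail (m + j * (2 * π)) = E.tail m + j * (2 * π) := by
  rw [tail, tail, support_periodic]; ring

theorem head_periodic (m : ℝ) (j : ℤ) : E.head (m + j * (2 * π)) = E.head m + j * (2 * π) := by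
  rw [head, head, support_periodic]; ring

theorem surjective_tail : Function.Surjective E.tail := fun y => by
  have hc : Continuous E.tail :=
    continuous_iff_continuousAt.2 fun m => (E.hasDerivAt_tail m).continuousAt
  have h1 : E.tail y ≤ y := by simp [tail, arccos_nonneg]
  have h2 : y ≤ E.tail (y + π) := by
    simp only [tail]; linarith [arccos_le_pi (E.support (y + π))]
  obtain ⟨m, -, hm⟩ := intermediate_value_Icc (by linarith [pi_pos]) hc.continuousOn ⟨h1, h2⟩
  exact ⟨m, hm⟩

theorem surjective_head : Function.Surjective E.head := fun y => by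
  have hc : Continuous E.head :=
    continuous_iff_continuousAt.2 fun m => (E.hasDerivAt_head m).continuousAt
  have h1 : E.head (y - π) ≤ y := by
    simp only [head]; linarith [arccos_le_pi (E.support (y - π))]
  have h2 : y ≤ E.head y := by simp [head, arccos_nonneg]
  obtain ⟨m, -, hm⟩ := intermediate_value_Icc (by linarith [pi_pos]) hc.continuousOn ⟨h1, h2⟩
  exact ⟨m, hm⟩

/-- On the tangent line `quad` is a square. -/
theorem sqrt_quad (m δ s : ℝ) (hδ : cos δ = E.support m) :
    √(E.quad (cos m * cos δ - sin m * s, sin m * cos δ + cos m * s)) =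
      √(E.normSq m) / |E.a * E.b' - E.b * E.a'| * |s - E.supportD m| := by
  set r := √(E.normSq m) with hr
  have hr0 : 0 < r := sqrt_pos.2 (E.normSq_pos m)
  have hr2 : r ^ 2 = E.normSq m := sq_sqrt (E.normSq_pos m).le
  have hdet := E.det_ne
  have e : E.quad (cos m * cos δ - sin m * s, sin m * cos δ + cos m * s) =
      (r / |E.a * E.b' - E.b * E.a'| * |s - E.supportD m|) ^ 2 := by
    rw [mul_pow, div_pow, sq_abs, sq_abs, hr2, hδ]
    set X := cos m * E.support m - sin m * s - E.u with hX
    set Y := sin m * E.support m + cos m * s - E.v with hY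
    set p := E.b' * X - E.b * Y
    set q := -E.a' * X + E.a * Y
    set A := E.a * cos m + E.a' * sin m
    set B := E.b * cos m + E.b' * sin m
    have hN : E.normSq m = A ^ 2 + B ^ 2 := rfl
    have h1 : A * p + B * q = (E.a * E.b' - E.b * E.a') * r := by
      have : cos m * X + sin m * Y = r := by
        rw [hX, hY, support, centre, ← hr]
        linear_combination (E.u * cos m + E.v * sin m + r) * sin_sq_add_cos_sq m
      simp only [p, q, A, B]
      linear_combination (E.a * E.b' - E.b * E.a') * this
    have h2 : -B * p + A * q = E.normSq m * (s - E.supportD m) := by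
      have hD : r * (E.supportD m - (-E.u * sin m + E.v * cos m)) =
          A * (-E.a * sin m + E.a' * cos m) + B * (-E.b * sin m + E.b' * cos m) := by
        simp only [supportD, A, B, ← hr]
        field_simp
        ring
      have hk : cos m * X + sin m * Y = r := by
        rw [hX, hY, support, centre, ← hr]
        linear_combination (E.u * cos m + E.v * sin m + r) * sin_sq_add_cos_sq m
      have hl : -sin m * X + cos m * Y = s + E.u * sin m - E.v * cos m := by
        rw [hX, hY]
        linear_combination s * sin_sq_add_cos_sq m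
      rw [hN] at hr2 ⊢
      simp only [p, q, A, B] at hD hr2 ⊢
      set P' := -(E.b * cos m + E.b' * sin m) * E.b' - (E.a * cos m + E.a' * sin m) * E.a' with hP
      set Q' := (E.b * cos m + E.b' * sin m) * E.b + (E.a * cos m + E.a' * sin m) * E.a with hQ
      linear_combination (P' * cos m + Q' * sin m) * hk +
        ((E.a * cos m + E.a' * sin m) ^ 2 + (E.b * cos m + E.b' * sin m) ^ 2) * hl +
        r * hD - (E.supportD m - (-E.u * sin m + E.v * cos m)) * hr2 -
        (P' * X + Q' * Y) * sin_sq_add_cos_sq m
    show (p ^ 2 + q ^ 2) / (E.a * E.b' - E.b * E.a') ^ 2 - 1 = _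
    have h3 : (p ^ 2 + q ^ 2) * E.normSq m = (E.a * E.b' - E.b * E.a') ^ 2 * E.normSq m +
        (E.normSq m * (s - E.supportD m)) ^ 2 := by
      rw [← h2, ← hr2, ← mul_pow, ← h1, hr2, hN]; ring
    have hN0 := (E.normSq_pos m).ne'
    field_simp
    refine mul_left_cancel₀ hN0 ?_
    linear_combination h3
  rw [e, sqrt_sq (by positivity)]

theorem ept_eq (m δ : ℝ) :
    ept (m + δ) = (cos m * cos δ - sin m * sin δ, sin m * cos δ + cos m * sin δ) ∧
    ept (m - δ) = (cos m * cos δ - sin m * -sin δ, sin m * cos δ + cos m * -sin δ) := by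
  simp [ept, cos_add, sin_add, sub_eq_add_neg]

theorem sqrt_quad_ends (m : ℝ) :
    √(E.quad (ept (E.tail m))) = √(E.normSq m) / |E.a * E.b' - E.b * E.a'| *
        (sin (arccos (E.support m)) + E.supportD m) ∧
    √(E.quad (ept (E.head m))) = √(E.normSq m) / |E.a * E.b' - E.b * E.a'| *
        (sin (arccos (E.support m)) - E.supportD m) := by
  obtain ⟨h1, h2⟩ := E.support_mem m
  have hcos := cos_arccos h1.le h2.le
  obtain ⟨-, hlt⟩ := E.sin_arccos_support m
  rw [abs_lt] at hlt
  constructor
  · rw [tail, (ept_eq m _).2, E.sqrt_quad m _ _ hcos,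
      abs_of_neg (by linarith : -sin (arccos (E.support m)) - E.supportD m < 0)]
    ring
  · rw [head, (ept_eq m _).1, E.sqrt_quad m _ _ hcos,
      abs_of_pos (by linarith : (0 : ℝ) < sin (arccos (E.support m)) - E.supportD m)]

theorem quad_pos (θ : ℝ) : 0 < √(E.quad (ept θ)) := by
  obtain ⟨m, rfl⟩ := E.surjective_tail θ
  rw [(E.sqrt_quad_ends m).1]
  have hlt := (abs_lt.1 (E.sin_arccos_support m).2).1
  have := sqrt_pos.2 (E.normSq_pos m)
  have := abs_pos.2 E.det_ne
  have : 0 < sin (arccos (E.support m)) + E.supportD m := by linarith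
  positivity

/-- **The invariant coordinate.** -/
def coord (θ : ℝ) : ℝ := ∫ x in (0 : ℝ)..θ, (√(E.quad (ept x)))⁻¹

theorem hasDerivAt_coord (θ : ℝ) : HasDerivAt E.coord (√(E.quad (ept θ)))⁻¹ θ := by
  have hc : Continuous fun x => (√(E.quad (ept x)))⁻¹ := by
    refine Continuous.inv₀ (continuous_sqrt.comp ?_) fun x => (E.quad_pos x).ne'
    simp only [quad, ept]
    fun_prop
  exact (hc.integral_hasStrictDerivAt 0 θ).hasDerivAt

theorem strictMono_coord : StrictMono E.coord :=
  strictMono_of_hasDerivAt_pos E.hasDerivAt_coord fun θ => inv_pos.2 (E.quad_pos θ)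

/-- The period of the coordinate. -/
def period : ℝ := E.coord (2 * π)

theorem coord_zero : E.coord 0 = 0 := by simp [coord]

theorem period_pos : 0 < E.period := by
  simpa [period, coord_zero] using E.strictMono_coord two_pi_pos

theorem coord_add_two_pi (θ : ℝ) : E.coord (θ + 2 * π) = E.coord θ + E.period := by
  have hd : ∀ x, HasDerivAt (fun x => E.coord (x + 2 * π) - E.coord x) 0 x := fun x => by
    refine (((E.hasDerivAt_coord _).comp_add_const x (2 * π)).sub
      (E.hasDerivAt_coord x)).congr_deriv ?_
    simp [ept]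
  have := is_const_of_deriv_eq_zero (fun x => (hd x).differentiableAt) (fun x => (hd x).deriv) θ 0
  rw [zero_add, coord_zero, sub_zero] at this
  rw [period]; linarith

theorem coord_add_int (θ : ℝ) (j : ℤ) : E.coord (θ + j * (2 * π)) = E.coord θ + j * E.period := by
  induction j with
  | zero => simp
  | succ i ih =>
    rw [show θ + (((i : ℤ) + 1 : ℤ) : ℝ) * (2 * π) = θ + ((i : ℤ) : ℝ) * (2 * π) + 2 * π by
      push_cast; ring, coord_add_two_pi, ih]
    push_cast; ring
  | pred i ih =>
    have h := E.coord_add_two_pi (θ + ((-(i : ℤ) - 1 : ℤ) : ℝ) * (2 * π))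
    rw [show θ + ((-(i : ℤ) - 1 : ℤ) : ℝ) * (2 * π) + 2 * π =
      θ + ((-(i : ℤ) : ℤ) : ℝ) * (2 * π) by push_cast; ring, ih] at h
    push_cast at h ⊢
    linarith

/-- The translation. -/
def shiftLen : ℝ := E.coord (E.head 0) - E.coord (E.tail 0)

/-- **The tangent map is a translation in the invariant coordinate.** -/
theorem coord_head (m : ℝ) : E.coord (E.head m) = E.coord (E.tail m) + E.shiftLen := by
  have hd : ∀ x, HasDerivAt (fun x => E.coord (E.head x) - E.coord (E.tail x)) 0 x := fun x => by
    refine (((E.hasDerivAt_coord _).comp x (E.hasDerivAt_head x)).sub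
      ((E.hasDerivAt_coord _).comp x (E.hasDerivAt_tail x))).congr_deriv ?_
    obtain ⟨e1, e2⟩ := E.sqrt_quad_ends x
    rw [e1, e2]
    obtain ⟨h0, hlt⟩ := E.sin_arccos_support x
    rw [abs_lt] at hlt
    have := sqrt_pos.2 (E.normSq_pos x)
    have := abs_pos.2 E.det_ne
    have : sin (arccos (E.support x)) + E.supportD x ≠ 0 := by linarith
    have : sin (arccos (E.support x)) - E.supportD x ≠ 0 := by linarith
    field_simp
    ring
  have := is_const_of_deriv_eq_zero (fun x => (hd x).differentiableAt) (fun x => (hd x).deriv) m 0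
  rw [shiftLen]; linarith

theorem shiftLen_mem : E.shiftLen ∈ Set.Ioo 0 E.period := by
  obtain ⟨h1, h2⟩ := E.support_mem 0
  have hpos : 0 < arccos (E.support 0) := arccos_pos.2 h2
  have hlt : arccos (E.support 0) < π := lt_of_le_of_ne (arccos_le_pi _) fun e => by
    have := cos_arccos h1.le h2.le
    rw [e, cos_pi] at this
    linarith
  have e1 : E.tail 0 < E.head 0 := by simp only [tail, head]; linarith
  have e2 : E.head 0 < E.tail 0 + 2 * π := by simp only [tail, head]; linarith
  have := E.strictMono_coord e1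
  have h3 := E.strictMono_coord e2
  rw [coord_add_two_pi] at h3
  simp only [shiftLen, Set.mem_Ioo]
  constructor <;> linarith

end Inside

end FA.Poncelet

end
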