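import Fermat.Agent.Poncelet.Circle

/-!
# Poncelet's porism for nested ellipses

The sides of a Poncelet polygon all run the same way around the inner ellipse, so in the invariant
coordinate of the outer ellipse the polygon is an arithmetic progression with a fixed step.
-/

set_option autoImplicit false

noncomputable section

open Real

namespace FA.Poncelet

theorem ept_eq_iff {x y : ℝ} : ept x = ept y ↔ ∃ j : ℤ, x = y + j * (2 * π) := by
  constructor
  · intro h
    obtain ⟨hc, hs⟩ := Prod.ext_iff.1 h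
    obtain ⟨k, hk⟩ := Real.Angle.angle_eq_iff_two_pi_dvd_sub.1 (Real.Angle.cos_sin_inj hc hs)
    exact ⟨k, by linarith⟩
  · rintro ⟨j, rfl⟩
    simp [ept]

theorem exists_ept {z : Plane} (h : z ∈ unitCircle) : ∃ θ, z = ept θ := by
  have h' : z.1 ^ 2 + z.2 ^ 2 = 1 := h
  have h1 : -1 ≤ z.1 := by nlinarith
  have h2 : z.1 ≤ 1 := by nlinarith
  have hs : sin (arccos z.1) = |z.2| := by
    rw [sin_arccos, ← sqrt_sq_eq_abs]; congr 1; linarith
  rcases le_total 0 z.2 with hz | hz
  · exact ⟨arccos z.1, by simp [ept, cos_arccos h1 h2, hs, abs_of_nonneg hz]⟩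
  · exact ⟨-arccos z.1, by simp [ept, cos_arccos h1 h2, hs, abs_of_nonpos hz]⟩

theorem ept_mem (θ : ℝ) : ept θ ∈ unitCircle := cos_sq_add_sin_sq θ

section Normalised

variable (C : Plane ≃ᵃ[ℝ] Plane)

theorem apply_coords (p : Plane) : C p =
    ((C 0).1 + (C.linear (1, 0)).1 * p.1 + (C.linear (0, 1)).1 * p.2,
      (C 0).2 + (C.linear (1, 0)).2 * p.1 + (C.linear (0, 1)).2 * p.2) := by
  have h : C p = C.linear p + C 0 := by simpa using C.map_vadd 0 p
  have hl : C.linear p = p.1 • C.linear (1, 0) + p.2 • C.linear (0, 1) := by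
    rw [← map_smul, ← map_smul, ← map_add]
    simp [Prod.smul_mk]
  rw [h, hl]
  ext <;> simp <;> ring

/-- The coefficients. -/
def coeffsOf : Coeffs where
  u := (C 0).1
  v := (C 0).2
  a := (C.linear (1, 0)).1
  b := (C.linear (0, 1)).1
  a' := (C.linear (1, 0)).2
  b' := (C.linear (0, 1)).2
  det_ne := by
    intro h
    have k : ∀ x y : ℝ, (C.linear (1, 0)).1 * x + (C.linear (0, 1)).1 * y = 0 →
        (C.linear (1, 0)).2 * x + (C.linear (0, 1)).2 * y = 0 → x = 0 ∧ y = 0 := by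
      intro x y h1 h2
      have : C (x, y) = C 0 := by
        rw [apply_coords C (x, y)]
        ext <;> simp <;> linarith
      simpa using Prod.ext_iff.1 (C.injective this)
    obtain ⟨hb', ha'⟩ := k (C.linear (0, 1)).2 (-(C.linear (1, 0)).2) (by linarith) (by ring)
    obtain ⟨-, ha⟩ := k (C.linear (0, 1)).1 (-(C.linear (1, 0)).1) (by ring) (by linarith)
    exact one_ne_zero (k 1 0 (by linarith) (by linarith)).1

/-- An ellipse in the unit disc as an `Inside`. -/
def insideOf (hC : C '' unitCircle ⊆ unitDisc) : Inside where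
  toCoeffs := coeffsOf C
  inside x y h := by
    have := hC ⟨(x, y), h, rfl⟩
    rw [apply_coords C (x, y)] at this
    exact this

variable {C} (hC : C '' unitCircle ⊆ unitDisc)

theorem ept_ne {m δ : ℝ} (h : sin δ ≠ 0) : ept (m - δ) ≠ ept (m + δ) := fun e => by
  obtain ⟨e1, e2⟩ := Prod.ext_iff.1 e
  simp only [ept, cos_add, sin_add, cos_sub, sin_sub] at e1 e2
  have h1 : sin m = 0 := (mul_eq_zero.1 (by linarith : sin m * sin δ = 0)).resolve_right h
  have h2 : cos m = 0 := (mul_eq_zero.1 (by linarith : cos m * sin δ = 0)).resolve_right h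
  have := sin_sq_add_cos_sq m
  rw [h1, h2] at this
  norm_num at this

/-- **Tangency in terms of the normal angle and the half angle.** -/
theorem isTangent_iff {m δ : ℝ} (h : ept (m - δ) ≠ ept (m + δ)) :
    IsTangent C (ept (m - δ)) (ept (m + δ)) ↔
      (cos δ - (insideOf C hC).centre m) ^ 2 = (insideOf C hC).normSq m := by
  set z := ept (m - δ) with hz
  set w := ept (m + δ) with hw
  set E := insideOf C hC with hE
  have hδ : sin δ ≠ 0 := fun e => h (by
    rw [hz, hw]; simp [ept, cos_add, sin_add, cos_sub, sin_sub, e])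
  have hmem : ∀ t, AffineMap.lineMap z w t ∈ C '' unitCircle ↔
      AffineMap.lineMap (C.symm z) (C.symm w) t ∈ unitCircle := fun t => by
    rw [show AffineMap.lineMap (C.symm z) (C.symm w) t = C.symm (AffineMap.lineMap z w t) from
      (C.symm.toAffineMap.apply_lineMap _ _ t).symm]
    constructor
    · rintro ⟨x, hx, e⟩; rwa [← e, AffineEquiv.symm_apply_apply]
    · exact fun hx => ⟨_, hx, AffineEquiv.apply_symm_apply _ _⟩
  unfold IsTangent
  rw [existsUnique_congr hmem, existsUnique_lineMap_iff fun e => h (C.symm.injective e)]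
  have eZ : ∀ p : Plane, E.u + E.a * (C.symm p).1 + E.b * (C.symm p).2 = p.1 ∧
      E.v + E.a' * (C.symm p).1 + E.b' * (C.symm p).2 = p.2 := fun p =>
    Prod.ext_iff.1 ((apply_coords C (C.symm p)).symm.trans (C.apply_symm_apply p))
  obtain ⟨z1, z2⟩ := eZ z
  obtain ⟨w1, w2⟩ := eZ w
  set Z := C.symm z
  set W := C.symm w
  simp only [hz, hw, ept, cos_add, sin_add, cos_sub, sin_sub] at z1 z2 w1 w2
  set D := E.a * E.b' - E.b * E.a' with hD
  have hD0 : D ≠ 0 := E.det_ne
  have d1 : D * (W.1 - Z.1) = -2 * sin δ * (E.b * cos m + E.b' * sin m) := by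
    rw [hD]; linear_combination E.b' * (w1 - z1) - E.b * (w2 - z2)
  have d2 : D * (W.2 - Z.2) = 2 * sin δ * (E.a * cos m + E.a' * sin m) := by
    rw [hD]; linear_combination E.a * (w2 - z2) - E.a' * (w1 - z1)
  have hk : (E.a * cos m + E.a' * sin m) * Z.1 + (E.b * cos m + E.b' * sin m) * Z.2 =
      cos δ - E.centre m := by
    rw [Inside.centre]
    linear_combination cos m * z1 + sin m * z2 + cos δ * sin_sq_add_cos_sq m
  have e1 : D * (Z.1 * (W.2 - Z.2) - Z.2 * (W.1 - Z.1)) =
      2 * sin δ * (cos δ - E.centre m) := by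
    linear_combination Z.1 * d2 - Z.2 * d1 + 2 * sin δ * hk
  have e2 : D ^ 2 * ((W.1 - Z.1) ^ 2 + (W.2 - Z.2) ^ 2) = (2 * sin δ) ^ 2 * E.normSq m := by
    rw [Inside.normSq, mul_add, ← mul_pow, ← mul_pow, d1, d2]; ring
  rw [← mul_right_inj' (pow_ne_zero 2 hD0), ← mul_pow, e1, e2, mul_pow]
  exact mul_right_inj' (pow_ne_zero 2 (mul_ne_zero two_ne_zero hδ))

/-- One forward side. -/
def Fwd (E : Inside) (z w : Plane) : Prop := ∃ m, z = ept (E.tail m) ∧ w = ept (E.head m)

theorem Fwd.right_unique {E : Inside} {z w w' : Plane} (h : Fwd E z w) (h' : Fwd E z w') :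
    w = w' := by
  obtain ⟨m, rfl, rfl⟩ := h
  obtain ⟨m', e, rfl⟩ := h'
  obtain ⟨j, hj⟩ := ept_eq_iff.1 e
  rw [← E.tail_periodic] at hj
  rw [E.strictMono_tail.injective hj, E.head_periodic]
  exact ept_eq_iff.2 ⟨j, rfl⟩

theorem Fwd.left_unique {E : Inside} {z z' w : Plane} (h : Fwd E z w) (h' : Fwd E z' w) :
    z = z' := by
  obtain ⟨m, rfl, rfl⟩ := h
  obtain ⟨m', rfl, e⟩ := h'
  obtain ⟨j, hj⟩ := ept_eq_iff.1 e
  rw [← E.head_periodic] at hj
  rw [E.strictMono_head.injective hj, E.tail_periodic]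
  exact ept_eq_iff.2 ⟨j, rfl⟩

/-- No side can be run in both directions. -/
theorem Fwd.not_swap {E : Inside} {z w : Plane} (h : Fwd E z w) : ¬ Fwd E w z := by
  rintro ⟨m', e1, e2⟩
  obtain ⟨m, rfl, rfl⟩ := h
  obtain ⟨j, hj⟩ := ept_eq_iff.1 e2
  obtain ⟨k, hk⟩ := ept_eq_iff.1 e1
  simp only [Inside.tail, Inside.head] at hj hk
  obtain ⟨h1, h2⟩ := E.support_mem m
  obtain ⟨h1', h2'⟩ := E.support_mem m'
  have hA := arccos_pos.2 h2
  have hA' := arccos_pos.2 h2'
  have hB : arccos (E.support m) < π := arccos_lt_pi.2 h1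
  have hB' : arccos (E.support m') < π := arccos_lt_pi.2 h1'
  have hkj : ((k - j : ℤ) : ℝ) * π = arccos (E.support m) + arccos (E.support m') := by
    push_cast; linarith
  have lo : 0 < k - j := by
    have : (0 : ℝ) < ((k - j : ℤ) : ℝ) := pos_of_mul_pos_left (by linarith) pi_pos.le
    exact_mod_cast this
  have hi : k - j < 2 := by
    have : ((k - j : ℤ) : ℝ) < 2 := lt_of_mul_lt_mul_right (by linarith) pi_pos.le
    exact_mod_cast this
  obtain rfl : k = j + 1 := by omega
  push_cast at hj hk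
  have hm : m + π = m' + ((j + 1 : ℤ) : ℝ) * (2 * π) := by push_cast; linarith
  have hc : E.support (m + π) = E.support m' := by rw [hm, E.support_periodic]
  have ha : arccos (E.support m') = π - arccos (E.support m) := by linarith
  have := congrArg cos ha
  rw [cos_arccos h1'.le h2'.le, cos_pi_sub, cos_arccos h1.le h2.le, ← hc, Inside.support,
    Inside.support, E.centre_add_pi, E.normSq_add_pi] at this
  linarith [sqrt_pos.2 (E.normSq_pos m)]

theorem tangent_of_fwd {z w : Plane} (h : Fwd (insideOf C hC) z w) :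
    z ≠ w ∧ IsTangent C z w := by
  obtain ⟨m, rfl, rfl⟩ := h
  set E := insideOf C hC
  have hne := ept_ne (m := m) (E.sin_arccos_support m).1.ne'
  refine ⟨hne, (isTangent_iff hC hne).2 ?_⟩
  obtain ⟨h1, h2⟩ := E.support_mem m
  rw [cos_arccos h1.le h2.le]
  simp only [Inside.support, E, add_sub_cancel_left]
  exact sq_sqrt (Inside.normSq_pos _ m).le

theorem fwd_or_of_tangent {z w : Plane} (hz : z ∈ unitCircle) (hw : w ∈ unitCircle) (hne : z ≠ w)
    (h : IsTangent C z w) : Fwd (insideOf C hC) z w ∨ Fwd (insideOf C hC) w z := by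
  obtain ⟨α, rfl⟩ := exists_ept hz
  obtain ⟨β, rfl⟩ := exists_ept hw
  set E := insideOf C hC with hE
  have ea : α = (α + β) / 2 - (β - α) / 2 := by ring
  have eb : β = (α + β) / 2 + (β - α) / 2 := by ring
  have hne' : ept ((α + β) / 2 - (β - α) / 2) ≠ ept ((α + β) / 2 + (β - α) / 2) := by
    rwa [← ea, ← eb]
  have h' : IsTangent C (ept ((α + β) / 2 - (β - α) / 2)) (ept ((α + β) / 2 + (β - α) / 2)) := by
    rwa [← ea, ← eb]
  have hk := (isTangent_iff hC hne').1 h'
  obtain ⟨m, δ, hma, hmb, hc⟩ : ∃ m δ, ept α = ept (m - δ) ∧ ept β = ept (m + δ) ∧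
      cos δ = E.support m := by
    rcases sq_eq_sq_iff_eq_or_eq_neg.1 (hk.trans (sq_sqrt (E.normSq_pos _).le).symm) with e | e
    · exact ⟨_, _, congrArg ept ea, congrArg ept eb, by rw [Inside.support]; linarith⟩
    · refine ⟨(α + β) / 2 + π, (β - α) / 2 + π, congrArg ept (by ring),
        ept_eq_iff.2 ⟨-1, by push_cast; ring⟩, ?_⟩
      rw [cos_add_pi, Inside.support, E.centre_add_pi, E.normSq_add_pi]
      linarith
  obtain ⟨h1, h2⟩ := E.support_mem m
  rw [← cos_arccos h1.le h2.le] at hc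
  obtain ⟨k, hk | hk⟩ := cos_eq_cos_iff.1 hc.symm
  · refine Or.inl ⟨m, hma.trans ?_, hmb.trans ?_⟩
    · exact ept_eq_iff.2 ⟨-k, by rw [hk, Inside.tail]; push_cast; ring⟩
    · exact ept_eq_iff.2 ⟨k, by rw [hk, Inside.head]; ring⟩
  · refine Or.inr ⟨m, hmb.trans ?_, hma.trans ?_⟩
    · exact ept_eq_iff.2 ⟨k, by rw [hk, Inside.tail]; ring⟩
    · exact ept_eq_iff.2 ⟨-k, by rw [hk, Inside.head]; push_cast; ring⟩

theorem fwd_coord {E : Inside} {θ : ℝ} {w : Plane} (h : Fwd E (ept θ) w) :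
    ∃ φ, w = ept φ ∧ E.coord φ = E.coord θ + E.shiftLen := by
  obtain ⟨m, e, rfl⟩ := h
  obtain ⟨j, hj⟩ := ept_eq_iff.1 e
  refine ⟨E.head m + j * (2 * π), ept_eq_iff.2 ⟨-j, by push_cast; ring⟩, ?_⟩
  rw [hj, E.coord_add_int, E.coord_add_int, E.coord_head]
  ring

theorem bwd_coord {E : Inside} {θ : ℝ} {w : Plane} (h : Fwd E w (ept θ)) :
    ∃ φ, w = ept φ ∧ E.coord φ = E.coord θ - E.shiftLen := by
  obtain ⟨m, rfl, e⟩ := h
  obtain ⟨j, hj⟩ := ept_eq_iff.1 e
  refine ⟨E.tail m + j * (2 * π), ept_eq_iff.2 ⟨-j, by push_cast; ring⟩, ?_⟩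
  rw [hj, E.coord_add_int, E.coord_add_int, E.coord_head]
  ring

theorem ept_eq_iff_coord {E : Inside} {x y : ℝ} :
    ept x = ept y ↔ ∃ j : ℤ, E.coord x = E.coord y + j * E.period := by
  refine ept_eq_iff.trans (exists_congr fun j => ?_)
  rw [← E.coord_add_int]
  exact E.strictMono_coord.injective.eq_iff.symm

include hC in
/-- **The rotation criterion for a circle and an inner ellipse.** -/
theorem closes_iff {P : ℕ → Plane} (h : IsPolygon (AffineEquiv.refl ℝ Plane) C P) (n : ℕ) :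
    P n = P 0 ↔ ∃ j : ℤ, (n : ℝ) * (insideOf C hC).shiftLen = j * (insideOf C hC).period := by
  set E := insideOf C hC
  have hP : ∀ i, P i ∈ unitCircle := fun i => by simpa using h.on_outer i
  have step : ∀ i, Fwd E (P i) (P (i + 1)) ∨ Fwd E (P (i + 1)) (P i) := fun i =>
    fwd_or_of_tangent hC (hP _) (hP _) (h.ne_next i).symm (h.tangent i)
  obtain ⟨θ, hθ⟩ := exists_ept (hP 0)
  obtain ⟨ε, hε, hco⟩ : ∃ ε : ℝ, (ε = 1 ∨ ε = -1) ∧
      ∀ i, ∃ φ, P i = ept φ ∧ E.coord φ = E.coord θ + ε * i * E.shiftLen := by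
    rcases step 0 with h0 | h0
    · have all : ∀ i, Fwd E (P i) (P (i + 1)) := by
        intro i
        induction i with
        | zero => exact h0
        | succ i ih => exact (step (i + 1)).resolve_right fun b => h.ne_prev i (b.left_unique ih)
      refine ⟨1, Or.inl rfl, fun i => ?_⟩
      induction i with
      | zero => exact ⟨θ, hθ, by simp⟩
      | succ i ih =>
        obtain ⟨φ, hφ, hc⟩ := ih
        obtain ⟨ψ, hψ, hd⟩ := fwd_coord (hφ ▸ all i)
        exact ⟨ψ, hψ, by push_cast; linarith⟩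
    · have all : ∀ i, Fwd E (P (i + 1)) (P i) := by
        intro i
        induction i with
        | zero => exact h0
        | succ i ih => exact (step (i + 1)).resolve_left fun f => h.ne_prev i (f.right_unique ih)
      refine ⟨-1, Or.inr rfl, fun i => ?_⟩
      induction i with
      | zero => exact ⟨θ, hθ, by simp⟩
      | succ i ih =>
        obtain ⟨φ, hφ, hc⟩ := ih
        obtain ⟨ψ, hψ, hd⟩ := bwd_coord (hφ ▸ all i)
        exact ⟨ψ, hψ, by push_cast; linarith⟩
  obtain ⟨φ, hφ, hc⟩ := hco n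
  rw [hφ, hθ, ept_eq_iff_coord (E := E), hc]
  simp only [add_right_inj]
  rcases hε with rfl | rfl
  · simp
  · constructor <;> rintro ⟨j, hj⟩ <;> exact ⟨-j, by push_cast; linarith⟩

include hC in
/-- **There is a polygon from every point.** -/
theorem exists_polygon {z : Plane} (hz : z ∈ unitCircle) :
    ∃ P, IsPolygon (AffineEquiv.refl ℝ Plane) C P ∧ P 0 = z := by
  set E := insideOf C hC
  obtain ⟨θ, rfl⟩ := exists_ept hz
  let g : ℝ → ℝ := fun x => E.head (Function.surjInv E.surjective_tail x)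
  have hg : ∀ x, Fwd E (ept x) (ept (g x)) := fun x =>
    ⟨_, by rw [Function.surjInv_eq E.surjective_tail x], rfl⟩
  refine ⟨fun i => ept (g^[i] θ), ⟨fun i => ⟨_, ept_mem _, rfl⟩, fun i => ?_, fun i => ?_,
    fun i => ?_⟩, rfl⟩ <;>
    have h1 := hg (g^[i] θ) <;>
    simp only [Function.iterate_succ_apply']
  · exact (tangent_of_fwd hC h1).1.symm
  · intro e
    have h2 := hg (g (g^[i] θ))
    rw [e] at h2
    exact h1.not_swap h2
  · exact (tangent_of_fwd hC h1).2

end Normalised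

/-! ### Two ellipses -/

variable {A B : Plane ≃ᵃ[ℝ] Plane}

theorem subset_disc (hAB : B '' unitCircle ⊆ A '' unitDisc) :
    (B.trans A.symm) '' unitCircle ⊆ unitDisc := by
  rintro _ ⟨x, hx, rfl⟩
  obtain ⟨y, hy, e⟩ := hAB ⟨x, hx, rfl⟩
  rwa [AffineEquiv.trans_apply, ← e, AffineEquiv.symm_apply_apply]

/-- **A pair of nested ellipses is a rotation.** -/
theorem rotation_criterion (hAB : B '' unitCircle ⊆ A '' unitDisc) :
    ∃ L c : ℝ, 0 < c ∧ c < L ∧
      ∀ P, IsPolygon A B P → ∀ n : ℕ, (P n = P 0 ↔ ∃ j : ℤ, (n : ℝ) * c = j * L) := by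
  set E := insideOf _ (subset_disc hAB)
  refine ⟨E.period, E.shiftLen, E.shiftLen_mem.1, E.shiftLen_mem.2, fun P hP n => ?_⟩
  rw [← closes_iff (subset_disc hAB) hP.normalise n]
  exact (A.symm.injective.eq_iff).symm

/-- **Poncelet's porism.** -/
theorem poncelet_porism (hAB : B '' unitCircle ⊆ A '' unitDisc) {P Q : ℕ → Plane}
    (hP : IsPolygon A B P) (hQ : IsPolygon A B Q) {n : ℕ} (hn : P n = P 0) (i : ℕ) :
    Q (i + n) = Q i := by
  obtain ⟨L, c, -, -, h⟩ := rotation_criterion hAB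
  have := (h _ (hQ.shift i) n).2 ((h P hP n).1 hn)
  simpa [add_comm] using this

/-- Polygons exist from every point of the outer ellipse. -/
theorem exists_polygon_from (hAB : B '' unitCircle ⊆ A '' unitDisc) {z : Plane}
    (hz : z ∈ A '' unitCircle) : ∃ P, IsPolygon A B P ∧ P 0 = z := by
  obtain ⟨y, hy, rfl⟩ := hz
  obtain ⟨P, hP, h0⟩ := exists_polygon (subset_disc hAB) hy
  exact ⟨fun i => A (P i), hP.denormalise, congrArg A h0⟩

end FA.Poncelet

end
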